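/-
P-SS2 (helper26), row 1038 SS2-C1-EIS, core (Mathlib + `H22.KL.IsUniformiser` + `H88.KLB.DiscAt`).

Newton polygon / Eisenstein: `φ : E₁ → E₂` of degree `≤ d`, `V' ∩ E₁ = V` discrete with
uniformiser `ϖ`, `Z ∈ 𝔪_{V'}` with `Z^n = ϖ · unit` and `d < 2 n`.  Then the valuation of `V'` is
discrete with uniformiser `Z`.

* `eis_sum_ne_zero` : a sum of nonzero elements with pairwise distinct values is nonzero;
* `eis_value_mem` : every nonzero `y ∈ E₂` has value in `γ^ℤ`, `γ = v(Z)`;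
* `eisUnif_core` : `DiscAt V'.valuation Z`.
-/
import Fermat.Agent.H88.KL.ValBasic

set_option autoImplicit false

noncomputable section

namespace Fermat.Agent.H26.SS2

open Fermat.Agent.H22.KL Fermat.Agent.H88.KLB

section core

variable {Γ : Type*} [LinearOrderedCommGroupWithZero Γ]

/-- a sum of nonzero elements with pairwise distinct values is nonzero -/
theorem eis_sum_ne_zero {E : Type} [Field E] (val : Valuation E Γ) {ι : Type*} (s : Finset ι)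
    (x : ι → E) (hs : s.Nonempty) (hne : ∀ i ∈ s, x i ≠ 0)
    (hinj : ∀ i ∈ s, ∀ j ∈ s, val (x i) = val (x j) → i = j) : ∑ i ∈ s, x i ≠ 0 := by
  classical
  obtain ⟨j, hj, hmax⟩ := s.exists_max_image (fun i => val (x i)) hs
  have h1 : val (∑ i ∈ s, x i) = val (x j) := by
    refine Valuation.map_sum_eq_of_lt val hj fun i hi => ?_
    rw [Finset.mem_sdiff, Finset.mem_singleton] at hi
    exact lt_of_le_of_ne (hmax i hi.1) (fun h => hi.2 (hinj i hi.1 j hj h))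
  intro h0
  rw [h0, map_zero] at h1
  exact ((Valuation.ne_zero_iff val).mpr (hne j hj)) h1.symm

/-- residues modulo `n` of numbers `< 2 n` in the same half determine the number -/
theorem eis_eq_of_mod_eq {n i j : ℕ} (hi : i < 2 * n) (hj : j < 2 * n)
    (hij : (i < n ↔ j < n)) (h : i % n = j % n) : i = j := by
  by_cases h1 : i < n
  · have h2 : j < n := hij.mp h1
    rwa [Nat.mod_eq_of_lt h1, Nat.mod_eq_of_lt h2] at h
  · have h2 : ¬ j < n := fun h2 => h1 (hij.mpr h2)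
    rw [not_lt] at h1 h2
    rw [Nat.mod_eq_sub_mod h1, Nat.mod_eq_sub_mod h2,
      Nat.mod_eq_of_lt (by omega), Nat.mod_eq_of_lt (by omega)] at h
    omega

/-- `n k + r` determines `r` for `0 ≤ r < n` -/
theorem eis_mod_unique {n : ℕ} {k k' : ℤ} {r r' : ℕ} (hr : r < n) (hr' : r' < n)
    (h : (n : ℤ) * k + (r : ℤ) = (n : ℤ) * k' + (r' : ℤ)) : r = r' := by
  have h1 : ((n : ℤ) * k + (r : ℤ)) % (n : ℤ) = (r : ℤ) := by
    rw [Int.add_comm, Int.add_mul_emod_self_left]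
    exact Int.emod_eq_of_lt (by positivity) (by exact_mod_cast hr)
  have h2 : ((n : ℤ) * k' + (r' : ℤ)) % (n : ℤ) = (r' : ℤ) := by
    rw [Int.add_comm, Int.add_mul_emod_self_left]
    exact Int.emod_eq_of_lt (by positivity) (by exact_mod_cast hr')
  rw [h, h2] at h1
  exact_mod_cast h1.symm

/-- **The value group.**  Every nonzero element of `E₂` has value in `γ^ℤ`. -/
theorem eis_value_mem {E₁ E₂ : Type} [Field E₁] [Field E₂] (φ : E₁ →+* E₂)
    (val : Valuation E₂ Γ) (γ : Γ) (hγ0 : 0 < γ) (hγ1 : γ < 1) (n d : ℕ) (hn : 0 < n)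
    (hd : d < 2 * n)
    (hE₁ : ∀ a : E₁, a ≠ 0 → ∃ k : ℤ, val (φ a) = γ ^ ((n : ℤ) * k))
    (hdep : ∀ c : Fin (d + 1) → E₂, ∃ a : Fin (d + 1) → E₁, a ≠ 0 ∧ ∑ i, φ (a i) * c i = 0)
    (Z : E₂) (hZ : val Z = γ) (y : E₂) (hy : y ≠ 0) : ∃ k : ℤ, val y = γ ^ k := by
  classical
  by_contra hno
  have hno' : ∀ k : ℤ, val y ≠ γ ^ k := fun k hk => hno ⟨k, hk⟩
  have hinjγ := zpow_right_injective₀ hγ0 hγ1.ne
  have hvy : val y ≠ 0 := (Valuation.ne_zero_iff val).mpr hy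
  have hZ0 : Z ≠ 0 := by
    rw [← Valuation.ne_zero_iff val, hZ]
    exact hγ0.ne'
  obtain ⟨a, ha, hsum⟩ := hdep (fun i => (if (i : ℕ) < n then 1 else y) * Z ^ ((i : ℕ) % n))
  -- the values of the terms
  have hk : ∀ i : Fin (d + 1), a i ≠ 0 → ∃ k : ℤ,
      val (φ (a i) * ((if (i : ℕ) < n then 1 else y) * Z ^ ((i : ℕ) % n))) =
        (if (i : ℕ) < n then 1 else val y) * γ ^ ((n : ℤ) * k + (((i : ℕ) % n : ℕ) : ℤ)) := by
    intro i hi
    obtain ⟨k, hk⟩ := hE₁ (a i) hi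
    refine ⟨k, ?_⟩
    rw [map_mul, map_mul, map_pow, hk, hZ, zpow_add₀ hγ0.ne', zpow_natCast]
    by_cases h : (i : ℕ) < n
    · rw [if_pos h, if_pos h, map_one, one_mul, one_mul]
    · rw [if_neg h, if_neg h]
      exact mul_left_comm _ _ _
  have hne : ∀ i ∈ Finset.univ.filter (fun i : Fin (d + 1) => a i ≠ 0),
      φ (a i) * ((if (i : ℕ) < n then 1 else y) * Z ^ ((i : ℕ) % n)) ≠ 0 := by
    intro i hi
    rw [Finset.mem_filter] at hi
    refine mul_ne_zero ((map_ne_zero φ).mpr hi.2) (mul_ne_zero ?_ (pow_ne_zero _ hZ0))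
    split_ifs
    · exact one_ne_zero
    · exact hy
  have hS : (Finset.univ.filter (fun i : Fin (d + 1) => a i ≠ 0)).Nonempty := by
    obtain ⟨i, hi⟩ := Function.ne_iff.mp ha
    exact ⟨i, Finset.mem_filter.mpr ⟨Finset.mem_univ _, hi⟩⟩
  have hsum' : ∑ i ∈ Finset.univ.filter (fun i : Fin (d + 1) => a i ≠ 0),
      φ (a i) * ((if (i : ℕ) < n then 1 else y) * Z ^ ((i : ℕ) % n)) = 0 := by
    rw [Finset.sum_filter]
    refine Eq.trans (Finset.sum_congr rfl fun i _ => ?_) hsum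
    by_cases h : a i = 0
    · rw [if_neg (not_not.mpr h), h, map_zero, zero_mul]
    · rw [if_pos h]
  refine eis_sum_ne_zero val _ _ hS hne ?_ hsum'
  intro i hi j hj hij
  rw [Finset.mem_filter] at hi hj
  obtain ⟨k, hki⟩ := hk i hi.2
  obtain ⟨k', hkj⟩ := hk j hj.2
  rw [hki, hkj] at hij
  have hi2 : (i : ℕ) < 2 * n := lt_of_le_of_lt (Nat.lt_succ_iff.mp i.2) hd
  have hj2 : (j : ℕ) < 2 * n := lt_of_le_of_lt (Nat.lt_succ_iff.mp j.2) hd
  have hri : (i : ℕ) % n < n := Nat.mod_lt _ hn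
  have hrj : (j : ℕ) % n < n := Nat.mod_lt _ hn
  by_cases h1 : (i : ℕ) < n
  · by_cases h2 : (j : ℕ) < n
    · rw [if_pos h1, if_pos h2, one_mul, one_mul] at hij
      have h3 := eis_mod_unique hri hrj (hinjγ hij)
      exact Fin.ext (eis_eq_of_mod_eq hi2 hj2 ⟨fun _ => h2, fun _ => h1⟩ h3)
    · exfalso
      rw [if_pos h1, if_neg h2, one_mul] at hij
      refine hno' (((n : ℤ) * k + (((i : ℕ) % n : ℕ) : ℤ)) -
        ((n : ℤ) * k' + (((j : ℕ) % n : ℕ) : ℤ))) ?_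
      rw [zpow_sub₀ hγ0.ne', hij, mul_div_assoc, div_self (zpow_ne_zero _ hγ0.ne'), mul_one]
  · by_cases h2 : (j : ℕ) < n
    · exfalso
      rw [if_neg h1, if_pos h2, one_mul] at hij
      refine hno' (((n : ℤ) * k' + (((j : ℕ) % n : ℕ) : ℤ)) -
        ((n : ℤ) * k + (((i : ℕ) % n : ℕ) : ℤ))) ?_
      rw [zpow_sub₀ hγ0.ne', ← hij, mul_div_assoc, div_self (zpow_ne_zero _ hγ0.ne'), mul_one]
    · rw [if_neg h1, if_neg h2] at hij
      have h3 := eis_mod_unique hri hrj (hinjγ (mul_left_cancel₀ hvy hij))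
      exact Fin.ext (eis_eq_of_mod_eq hi2 hj2 ⟨fun h => absurd h h1, fun h => absurd h h2⟩ h3)

/-- **SS2-C1-EIS, valuation form.** -/
theorem eisUnif_core (E₁ E₂ : Type) [Field E₁] [Field E₂] (φ : E₁ →+* E₂)
    (V : ValuationSubring E₁) (V' : ValuationSubring E₂) (hV : V'.comap φ = V) (ϖ : E₁)
    (hdisc : ∀ a : E₁, a ≠ 0 →
      ∃ k : ℤ, a / ϖ ^ k ≠ 0 ∧ a / ϖ ^ k ∈ V ∧ (a / ϖ ^ k)⁻¹ ∈ V)
    (n d : ℕ) (hn : 0 < n) (hd : d < 2 * n)
    (hdep : ∀ c : Fin (d + 1) → E₂, ∃ a : Fin (d + 1) → E₁, a ≠ 0 ∧ ∑ i, φ (a i) * c i = 0)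
    (Z : E₂) (hZ : Z ∈ V'.nonunits)
    (hZn : Z ^ n / φ ϖ ≠ 0 ∧ Z ^ n / φ ϖ ∈ V' ∧ (Z ^ n / φ ϖ)⁻¹ ∈ V') :
    DiscAt V'.valuation Z := by
  have hP := presents_valuation V'
  have hZ0 : Z ≠ 0 := by
    rintro rfl
    rw [zero_pow hn.ne', zero_div] at hZn
    exact hZn.1 rfl
  have hϖ0 : φ ϖ ≠ 0 := by
    intro h0
    rw [h0, div_zero] at hZn
    exact hZn.1 rfl
  have hγ0 : 0 < V'.valuation Z := zero_lt_iff.mpr ((Valuation.ne_zero_iff _).mpr hZ0)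
  have hγ1 : V'.valuation Z < 1 := hP.mem_nonunits.mp hZ
  have hvϖ : V'.valuation (φ ϖ) = V'.valuation Z ^ n := by
    have h1 : V'.valuation (Z ^ n / φ ϖ) = 1 := (hP.val_eq_one_iff hZn.1).mpr hZn.2
    rw [map_div₀, map_pow, div_eq_one_iff_eq ((Valuation.ne_zero_iff _).mpr hϖ0)] at h1
    exact h1.symm
  refine ⟨hZ0, hγ1, fun y hy => ?_⟩
  refine eis_value_mem φ V'.valuation (V'.valuation Z) hγ0 hγ1 n d hn hd ?_ hdep Z rfl y hy
  intro a ha
  obtain ⟨k, hk0, hk1, hk2⟩ := hdisc a ha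
  refine ⟨k, ?_⟩
  have hφ0 : φ (a / ϖ ^ k) ≠ 0 := (map_ne_zero φ).mpr hk0
  have h1 : V'.valuation (φ (a / ϖ ^ k)) = 1 := by
    rw [hP.val_eq_one_iff hφ0]
    refine ⟨?_, ?_⟩
    · rw [← ValuationSubring.mem_comap, hV]
      exact hk1
    · rw [← map_inv₀, ← ValuationSubring.mem_comap, hV]
      exact hk2
  rw [map_div₀, map_zpow₀, map_div₀, map_zpow₀, hvϖ,
    div_eq_one_iff_eq (zpow_ne_zero _ (pow_ne_zero _ hγ0.ne'))] at h1
  rw [h1, zpow_mul, zpow_natCast]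

end core

end Fermat.Agent.H26.SS2
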