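/-
P-SS2 (helper26), row 1038 SS2-C1-EIS: `eisUnif : Fermat.Agent.H86.SS2.EisUnifStatement`
(Newton polygon / Eisenstein: `Z^n = ϖ · unit` and degree `< 2 n` ⟹ `Z` uniformiser, `V'`
discrete).  The proof is in `Fermat.Agent.H26.SS2.EisCore`.
-/
import Fermat.Agent.H26.SS2.EisCore
import Fermat.Agent.H86.SS2.Emb3Defs

set_option autoImplicit false

noncomputable section

namespace Fermat.Agent.H26.SS2

open Fermat.Agent.H22.KL Fermat.Agent.H88.KLB Fermat.Agent.H86.SS2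

/-- **SS2-C1-EIS.** -/
theorem eisUnif : EisUnifStatement := by
  intro E₁ E₂ _ _ φ V V' hV ϖ _ hdisc n d hn hd hdep Z hZ hZn
  have h : DiscAt V'.valuation Z :=
    eisUnif_core E₁ E₂ φ V V' hV ϖ hdisc n d hn hd hdep Z hZ hZn
  have hP := presents_valuation V'
  refine ⟨h.isUniformiser hP, fun y hy => ?_, h.isPrincipalIdealRing hP, h.ne_top hP⟩
  obtain ⟨k, hk⟩ := h.2.2 y hy
  have hne : y / Z ^ k ≠ 0 := div_ne_zero hy (zpow_ne_zero _ h.1)
  have h1 : V'.valuation (y / Z ^ k) = 1 := by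
    rw [map_div₀, map_zpow₀, hk]
    exact div_self (zpow_ne_zero _ h.pos.ne')
  exact ⟨k, hne, (hP.val_eq_one_iff hne).mp h1⟩

end Fermat.Agent.H26.SS2
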